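import Mathlib

set_option autoImplicit false

namespace Fermat.Agent.S22Lib

open UpperHalfPlane hiding I
open Complex Filter Function Metric Set
open scoped Manifold Topology Real

local notation "𝕢" => Periodic.qParam

/-- `G` is a holomorphic primitive of `g` on the upper half plane. -/
def IsPrim (G g : ℍ → ℂ) : Prop := ∀ τ : ℍ, HasDerivAt (G ∘ ofComplex) (g τ) (τ : ℂ)

theorem hasDerivAt_coe_ofComplex (τ : ℍ) :
    HasDerivAt (fun z : ℂ => ((ofComplex z : ℍ) : ℂ)) 1 (τ : ℂ) :=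
  (hasDerivAt_id (τ : ℂ)).congr_of_eventuallyEq (eventuallyEq_coe_comp_ofComplex τ.im_pos)

theorem IsPrim.mdiff {G g : ℍ → ℂ} (h : IsPrim G g) : MDiff G := by
  rw [UpperHalfPlane.mdifferentiable_iff]
  intro z hz
  exact (h ⟨z, hz⟩).differentiableAt.differentiableWithinAt

theorem IsPrim.eq_of_zero {G : ℍ → ℂ} (h : IsPrim G 0) (τ τ' : ℍ) : G τ = G τ' := by
  have hconv : IsPreconnected {z : ℂ | 0 < z.im} := (convex_halfSpace_im_gt 0).isPreconnected
  have hd : DifferentiableOn ℂ (G ∘ ofComplex) {z : ℂ | 0 < z.im} := fun z hz =>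
    (h ⟨z, hz⟩).differentiableAt.differentiableWithinAt
  have hz : Set.EqOn (deriv (G ∘ ofComplex)) 0 {z : ℂ | 0 < z.im} := fun z hz =>
    (h ⟨z, hz⟩).deriv
  have := IsOpen.is_const_of_deriv_eq_zero isOpen_upperHalfPlaneSet hconv hd hz
    (x := (τ : ℂ)) (y := (τ' : ℂ)) τ.im_pos τ'.im_pos
  simpa using this

theorem IsPrim.sub {G₁ G₂ g₁ g₂ : ℍ → ℂ} (h₁ : IsPrim G₁ g₁) (h₂ : IsPrim G₂ g₂) :
    IsPrim (G₁ - G₂) (g₁ - g₂) := fun τ => (h₁ τ).sub (h₂ τ)

theorem IsPrim.add {G₁ G₂ g₁ g₂ : ℍ → ℂ} (h₁ : IsPrim G₁ g₁) (h₂ : IsPrim G₂ g₂) :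
    IsPrim (G₁ + G₂) (g₁ + g₂) := fun τ => (h₁ τ).add (h₂ τ)

theorem IsPrim.const_smul {G g : ℍ → ℂ} (c : ℂ) (h : IsPrim G g) :
    IsPrim (c • G) (c • g) := fun τ => (h τ).const_smul c

/-- Two primitives of the same function differ by a constant. -/
theorem IsPrim.sub_eq_sub {G₁ G₂ g : ℍ → ℂ} (h₁ : IsPrim G₁ g) (h₂ : IsPrim G₂ g) (τ τ' : ℍ) :
    G₁ τ - G₂ τ = G₁ τ' - G₂ τ' := by
  have : IsPrim (G₁ - G₂) 0 := by simpa using h₁.sub h₂
  exact this.eq_of_zero τ τ'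

/-- Holomorphic functions on `ℍ`, periodic of period `h`, vanishing at `i∞`. -/
def decaySubmodule (h : ℝ) : Submodule ℂ (ℍ → ℂ) where
  carrier := {g | MDiff g ∧ Periodic (g ∘ ofComplex) h ∧ IsZeroAtImInfty g}
  zero_mem' := by
    refine ⟨mdifferentiable_const, fun z => rfl, ?_⟩
    exact (zeroAtImInftySubmodule ℂ).zero_mem
  add_mem' := by
    rintro a b ⟨ha1, ha2, ha3⟩ ⟨hb1, hb2, hb3⟩
    refine ⟨ha1.add hb1, ?_, (zeroAtImInftySubmodule ℂ).add_mem ha3 hb3⟩
    intro z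
    have h1 := ha2 z
    have h2 := hb2 z
    simp only [comp_apply, Pi.add_apply] at h1 h2 ⊢
    rw [h1, h2]
  smul_mem' := by
    rintro c a ⟨ha1, ha2, ha3⟩
    refine ⟨ha1.const_smul c, ?_, (zeroAtImInftySubmodule ℂ).smul_mem c ha3⟩
    intro z
    have h1 := ha2 z
    simp only [comp_apply, Pi.smul_apply] at h1 ⊢
    rw [h1]

theorem mem_decaySubmodule {h : ℝ} {g : ℍ → ℂ} :
    g ∈ decaySubmodule h ↔ MDiff g ∧ Periodic (g ∘ ofComplex) h ∧ IsZeroAtImInfty g := Iff.rfl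

theorem hasDerivAt_qParam (h : ℝ) (z : ℂ) :
    HasDerivAt (𝕢 h) (2 * π * I / h * 𝕢 h z) z := by
  unfold Periodic.qParam
  have h1 : HasDerivAt (fun z : ℂ => 2 * π * I * z / h) (2 * π * I / h) z := by
    simpa using ((hasDerivAt_id z).const_mul (2 * π * I)).div_const (h : ℂ)
  simpa [mul_comm] using h1.cexp

theorem exists_prim {h : ℝ} (hh : 0 < h) {g : ℍ → ℂ} (hg : g ∈ decaySubmodule h) :
    ∃ G ∈ decaySubmodule h, IsPrim G g := by
  obtain ⟨hhol, hper, hzero⟩ := hg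
  set c : ℂ → ℂ := cuspFunction h g with hc
  have hcd : DifferentiableOn ℂ c (ball 0 1) :=
    differentiableOn_cuspFunction_ball hh hper hhol hzero.isBoundedAtImInfty
  have hc0 : c 0 = 0 := hzero.cuspFunction_apply_zero hh
  have hball : ball (0 : ℂ) 1 ∈ 𝓝 (0 : ℂ) := ball_mem_nhds 0 one_pos
  have hdd : DifferentiableOn ℂ (dslope c 0) (ball 0 1) :=
    (Complex.differentiableOn_dslope hball).mpr hcd
  have hed : DifferentiableOn ℂ (fun q => (h / (2 * π * I) : ℂ) * dslope c 0 q) (ball 0 1) :=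
    hdd.const_mul _
  obtain ⟨K, hK0, hK⟩ := hed.isExactOn_ball.with_val_at 0 0
  have hmul : ∀ q : ℂ, q * dslope c 0 q = c q := by
    intro q
    have := sub_smul_dslope c 0 q
    simpa [hc0] using this
  have hqball : ∀ τ : ℍ, 𝕢 h τ ∈ ball (0 : ℂ) 1 := fun τ => by
    simpa using Periodic.norm_qParam_lt_one hh τ.im_pos
  have hprim : IsPrim (fun τ : ℍ => K (𝕢 h τ)) g := by
    intro τ
    have h1 : HasDerivAt (fun z : ℂ => K (𝕢 h z))
        ((h / (2 * π * I) : ℂ) * dslope c 0 (𝕢 h τ) * (2 * π * I / h * 𝕢 h τ)) (τ : ℂ) :=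
      (hK _ (hqball τ)).comp (τ : ℂ) (hasDerivAt_qParam h τ)
    have h2 : (h / (2 * π * I) : ℂ) * dslope c 0 (𝕢 h τ) * (2 * π * I / h * 𝕢 h τ) = g τ := by
      have hh' : (h : ℂ) ≠ 0 := by exact_mod_cast hh.ne'
      have hpi : (2 * π * I : ℂ) ≠ 0 := two_pi_I_ne_zero
      have : (h / (2 * π * I) : ℂ) * dslope c 0 (𝕢 h τ) * (2 * π * I / h * 𝕢 h τ)
          = 𝕢 h τ * dslope c 0 (𝕢 h τ) := by
        field_simp
      rw [this, hmul, hc, eq_cuspFunction τ hh.ne' hper]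
    rw [h2] at h1
    refine h1.congr_of_eventuallyEq ?_
    filter_upwards [eventuallyEq_coe_comp_ofComplex τ.im_pos] with z hz
    simp only [comp_apply] at hz ⊢
    rw [hz]
    rfl
  refine ⟨fun τ : ℍ => K (𝕢 h τ), ⟨hprim.mdiff, ?_, ?_⟩, hprim⟩
  · intro w
    by_cases hw : 0 < im w
    · have hw' : 0 < im (w + h) := by simpa using hw
      simp only [comp_apply, ofComplex_apply_of_im_pos hw', ofComplex_apply_of_im_pos hw]
      congr 1
      show 𝕢 h (w + h) = 𝕢 h w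
      have hh' : (h : ℂ) ≠ 0 := by exact_mod_cast hh.ne'
      unfold Periodic.qParam
      rw [show 2 * π * I * (w + h) / h = 2 * π * I * w / h + 2 * π * I by field_simp,
        Complex.exp_add, Complex.exp_two_pi_mul_I, mul_one]
    · have hw1 : im w ≤ 0 := not_lt.mp hw
      have hw' : im (w + h) ≤ 0 := by simpa using hw1
      simp only [comp_apply, ofComplex_apply_of_im_nonpos hw', ofComplex_apply_of_im_nonpos hw1]
  · have hcont : ContinuousAt K 0 := (hK 0 (mem_ball_self one_pos)).continuousAt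
    have := hcont.tendsto.comp (qParam_tendsto_atImInfty hh)
    rw [hK0] at this
    exact this

theorem decay_eq_of_isPrim {G₁ G₂ g : ℍ → ℂ} (hz₁ : IsZeroAtImInfty G₁) (hz₂ : IsZeroAtImInfty G₂)
    (h₁ : IsPrim G₁ g) (h₂ : IsPrim G₂ g) : G₁ = G₂ := by
  funext τ
  have hconst : ∀ τ' : ℍ, G₁ τ' - G₂ τ' = G₁ τ - G₂ τ := fun τ' => h₁.sub_eq_sub h₂ τ' τ
  have ht : Tendsto (fun τ' => G₁ τ' - G₂ τ') atImInfty (𝓝 (0 - 0)) := hz₁.sub hz₂
  simp only [hconst, sub_zero] at ht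
  have := tendsto_nhds_unique ht tendsto_const_nhds
  exact sub_eq_zero.mp this.symm

/-- The decaying primitive, as a linear map. -/
noncomputable def prim (h : ℝ) [hh : Fact (0 < h)] : decaySubmodule h →ₗ[ℂ] decaySubmodule h where
  toFun g := ⟨Classical.choose (exists_prim hh.out g.2),
    (Classical.choose_spec (exists_prim hh.out g.2)).1⟩
  map_add' a b := by
    apply Subtype.ext
    have ha := Classical.choose_spec (exists_prim hh.out a.2)
    have hb := Classical.choose_spec (exists_prim hh.out b.2)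
    have hab := Classical.choose_spec (exists_prim hh.out (a + b).2)
    exact decay_eq_of_isPrim hab.1.2.2 ((decaySubmodule h).add_mem ha.1 hb.1).2.2 hab.2
      (ha.2.add hb.2)
  map_smul' c a := by
    apply Subtype.ext
    have ha := Classical.choose_spec (exists_prim hh.out a.2)
    have hca := Classical.choose_spec (exists_prim hh.out (c • a).2)
    exact decay_eq_of_isPrim hca.1.2.2 ((decaySubmodule h).smul_mem c ha.1).2.2 hca.2
      (ha.2.const_smul c)

theorem prim_isPrim (h : ℝ) [hh : Fact (0 < h)] (g : decaySubmodule h) :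
    IsPrim (prim h g : ℍ → ℂ) (g : ℍ → ℂ) :=
  (Classical.choose_spec (exists_prim hh.out g.2)).2

theorem decay_isBigO {h : ℝ} (hh : 0 < h) (g : decaySubmodule h) :
    (g : ℍ → ℂ) =O[atImInfty] fun τ => Real.exp (-2 * π * τ.im / h) :=
  g.2.2.2.exp_decay_atImInfty hh g.2.2.1 g.2.1 g.2.2.2.isBoundedAtImInfty

end Fermat.Agent.S22Lib
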