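import Fermat.Agent.S22.FF

set_option autoImplicit false

namespace Fermat.Agent.S22Lib

open UpperHalfPlane hiding I
open Complex Filter Function Metric Set Asymptotics
open scoped Manifold Topology Real ModularForm MatrixGroups

/-- The filter "`im τ → ∞` inside the vertical strip `|re τ| ≤ R`". -/
def stripFilter (R : ℝ) : Filter ℍ := atImInfty ⊓ 𝓟 {τ : ℍ | |τ.re| ≤ R}

theorem stripFilter_neBot {R : ℝ} (hR : 0 ≤ R) : (stripFilter R).NeBot := by
  rw [stripFilter, inf_principal_neBot_iff]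
  intro s hs
  obtain ⟨A, hA⟩ := (atImInfty_mem s).mp hs
  have hpos : 0 < ((max A 1 : ℝ) * I : ℂ).im := by
    rw [Complex.im_ofReal_mul, Complex.I_im, mul_one]
    exact lt_of_lt_of_le one_pos (le_max_right _ _)
  refine ⟨⟨(max A 1 : ℝ) * I, hpos⟩, hA _ ?_, ?_⟩
  · show A ≤ ((max A 1 : ℝ) * I : ℂ).im
    rw [Complex.im_ofReal_mul, Complex.I_im, mul_one]
    exact le_max_left _ _
  · show |((max A 1 : ℝ) * I : ℂ).re| ≤ R
    rw [Complex.re_ofReal_mul, Complex.I_re, mul_zero, abs_zero]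
    exact hR

theorem stripFilter_le (R : ℝ) : stripFilter R ≤ atImInfty := inf_le_left

theorem eventually_stripFilter_re (R : ℝ) : ∀ᶠ τ in stripFilter R, |τ.re| ≤ R :=
  Filter.Eventually.filter_mono inf_le_right (mem_principal_self _)

theorem eventually_stripFilter_im (R A : ℝ) : ∀ᶠ τ in stripFilter R, A ≤ τ.im :=
  Filter.Eventually.filter_mono inf_le_left ((atImInfty_mem _).mpr ⟨A, fun _ h => h⟩)

theorem tendsto_smul_stripFilter {A : GL (Fin 2) ℝ} (hA0 : A 1 0 = 0) (hA : 0 < A.val.det)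
    (R : ℝ) : Tendsto (fun τ : ℍ => A • τ) (stripFilter R)
      (stripFilter ((|A 0 0| * R + |A 0 1|) / |A 1 1|)) := by
  have hA' : 0 < A.det.val := by simpa [Matrix.GeneralLinearGroup.val_det_apply] using hA
  refine tendsto_inf.mpr ⟨(tendsto_smul_atImInfty hA0).mono_left (stripFilter_le R), ?_⟩
  rw [tendsto_principal]
  filter_upwards [eventually_stripFilter_re R] with τ hτ
  have h1 : ((A • τ : ℍ) : ℂ) = ((A 0 0 : ℂ) * τ + (A 0 1 : ℂ)) / (A 1 1 : ℂ) := by
    rw [coe_smul_of_det_pos hA']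
    simp [num, denom, hA0]
  have h2 : (A • τ : ℍ).re = (A 0 0 * τ.re + A 0 1) / A 1 1 := by
    have := congrArg Complex.re h1
    rw [Complex.div_ofReal_re, Complex.add_re, Complex.re_ofReal_mul, Complex.ofReal_re] at this
    exact this
  show |(A • τ : ℍ).re| ≤ _
  rw [h2, abs_div]
  gcongr
  calc |A 0 0 * τ.re + A 0 1| ≤ |A 0 0 * τ.re| + |A 0 1| := abs_add_le _ _
    _ = |A 0 0| * |τ.re| + |A 0 1| := by rw [abs_mul]
    _ ≤ |A 0 0| * R + |A 0 1| := by gcongr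

theorem isBigO_linear_stripFilter (R : ℝ) (x y : ℂ) :
    (fun τ : ℍ => x - (τ : ℂ) * y) =O[stripFilter R] (fun τ : ℍ => τ.im) := by
  refine IsBigO.of_bound (‖x‖ + (|R| + 1) * ‖y‖) ?_
  filter_upwards [eventually_stripFilter_re R, eventually_stripFilter_im R 1] with τ h1 h2
  have h3 : ‖(τ : ℂ)‖ ≤ |τ.re| + |τ.im| := Complex.norm_le_abs_re_add_abs_im τ
  have h4 : |τ.im| = τ.im := abs_of_pos τ.im_pos
  have hR : R ≤ |R| := le_abs_self R
  rw [Real.norm_eq_abs, h4]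
  calc ‖x - (τ : ℂ) * y‖ ≤ ‖x‖ + ‖(τ : ℂ)‖ * ‖y‖ := by
        rw [← norm_mul]; exact norm_sub_le _ _
    _ ≤ ‖x‖ * τ.im + ((|R| + 1) * τ.im) * ‖y‖ := by
        have : ‖(τ : ℂ)‖ ≤ (|R| + 1) * τ.im := by
          have h5 : |R| ≤ |R| * τ.im := le_mul_of_one_le_right (abs_nonneg R) h2
          linarith
        have h6 : ‖x‖ ≤ ‖x‖ * τ.im := le_mul_of_one_le_right (norm_nonneg x) h2
        gcongr
    _ = (‖x‖ + (|R| + 1) * ‖y‖) * τ.im := by ring

variable (h : ℝ) [hh : Fact (0 < h)]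

theorem FF_isBigO (w : ℕ) (R : ℝ) (x y : ℂ) (g : decaySubmodule h) :
    (fun τ => FF h w τ x y g) =O[stripFilter R]
      (fun τ : ℍ => τ.im ^ w * Real.exp (-2 * π * τ.im / h)) := by
  induction w generalizing g with
  | zero =>
    simpa [FF_zero_apply] using (decay_isBigO hh.out (prim h g)).mono (stripFilter_le R)
  | succ w ih =>
    have h1 : (fun τ : ℍ => (x - (τ : ℂ) * y) ^ (w + 1) * (prim h g : ℍ → ℂ) τ) =O[stripFilter R]
        (fun τ : ℍ => τ.im ^ (w + 1) * Real.exp (-2 * π * τ.im / h)) :=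
      ((isBigO_linear_stripFilter R x y).pow (w + 1)).mul
        ((decay_isBigO hh.out (prim h g)).mono (stripFilter_le R))
    have h2 : (fun τ : ℍ => τ.im ^ w * Real.exp (-2 * π * τ.im / h)) =O[stripFilter R]
        (fun τ : ℍ => τ.im ^ (w + 1) * Real.exp (-2 * π * τ.im / h)) := by
      refine IsBigO.of_bound 1 ?_
      filter_upwards [eventually_stripFilter_im R 1] with τ hτ
      rw [one_mul, Real.norm_of_nonneg (by positivity), Real.norm_of_nonneg (by positivity)]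
      gcongr
      exact Nat.le_succ w
    have h3 := ((ih (prim h g)).trans h2).const_mul_left (((w : ℂ) + 1) * y)
    exact h1.add h3

theorem tendsto_pow_mul_exp_atImInfty (w : ℕ) :
    Tendsto (fun τ : ℍ => τ.im ^ w * Real.exp (-2 * π * τ.im / h)) atImInfty (𝓝 0) := by
  have hc : 0 < 2 * π / h := div_pos (by positivity) hh.out
  have h1 : Tendsto (fun t : ℝ => (2 * π / h * t) ^ w * Real.exp (-(2 * π / h * t))) atTop (𝓝 0) :=
    (Real.tendsto_pow_mul_exp_neg_atTop_nhds_zero w).comp (tendsto_id.const_mul_atTop hc)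
  have h2 : Tendsto (fun t : ℝ => ((2 * π / h) ^ w)⁻¹ *
      ((2 * π / h * t) ^ w * Real.exp (-(2 * π / h * t)))) atTop (𝓝 0) := by
    simpa using h1.const_mul ((2 * π / h) ^ w)⁻¹
  have h3 : (fun t : ℝ => ((2 * π / h) ^ w)⁻¹ *
      ((2 * π / h * t) ^ w * Real.exp (-(2 * π / h * t)))) =
      fun t : ℝ => t ^ w * Real.exp (-2 * π * t / h) := by
    funext t
    have : (2 * π / h) ^ w ≠ 0 := pow_ne_zero _ hc.ne'
    rw [mul_pow, show -(2 * π / h * t) = -2 * π * t / h by ring]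
    field_simp
  rw [h3] at h2
  exact h2.comp tendsto_comap

theorem FF_tendsto (w : ℕ) (R : ℝ) (x y : ℂ) (g : decaySubmodule h) :
    Tendsto (fun τ => FF h w τ x y g) (stripFilter R) (𝓝 0) :=
  (FF_isBigO h w R x y g).trans_tendsto
    ((tendsto_pow_mul_exp_atImInfty h w).mono_left (stripFilter_le R))

theorem IsPrim.sum {ι : Type*} (s : Finset ι) {G g : ι → ℍ → ℂ} (hG : ∀ i ∈ s, IsPrim (G i) (g i)) :
    IsPrim (fun τ => ∑ i ∈ s, G i τ) (fun τ => ∑ i ∈ s, g i τ) := by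
  intro τ
  have := HasDerivAt.fun_sum (u := s) (A := fun i => G i ∘ ofComplex) (A' := fun i => g i τ)
    (x := (τ : ℂ)) (fun i hi => hG i hi τ)
  exact this

/-- Compatibility of `FF` with a "Hecke operator" given by upper triangular matrices. -/
theorem FF_hecke {ι : Type*} [Fintype ι] (w : ℕ) (α : ι → GL (Fin 2) ℝ)
    (hα0 : ∀ i, α i 1 0 = 0) (hα : ∀ i, 0 < (α i).val.det) (g g' : decaySubmodule h)
    (hg : (g' : ℍ → ℂ) = ∑ i, (g : ℍ → ℂ) ∣[(w : ℤ) + 2] α i) (τ : ℍ) (x y : ℂ) :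
    FF h w τ x y g' = ∑ i, FF h w (α i • τ) (actX (α i) x y) (actY (α i) x y) g := by
  have h1 := FF_isPrim h w x y g'
  have h2 : IsPrim (fun τ => ∑ i, FF h w (α i • τ) (actX (α i) x y) (actY (α i) x y) g)
      (fun τ => ∑ i, ((g : ℍ → ℂ) ∣[(w : ℤ) + 2] α i) τ * (x - τ * y) ^ w) :=
    IsPrim.sum Finset.univ fun i _ => FF_smul_act_isPrim h w (α i) (hα i) x y g
  have h3 : (fun τ : ℍ => ∑ i, ((g : ℍ → ℂ) ∣[(w : ℤ) + 2] α i) τ * (x - τ * y) ^ w) =
      fun τ : ℍ => (g' : ℍ → ℂ) τ * (x - τ * y) ^ w := by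
    funext τ
    rw [hg, Finset.sum_apply, Finset.sum_mul]
  rw [h3] at h2
  have hconst : ∀ τ' : ℍ, FF h w τ' x y g' -
      ∑ i, FF h w (α i • τ') (actX (α i) x y) (actY (α i) x y) g =
      FF h w τ x y g' - ∑ i, FF h w (α i • τ) (actX (α i) x y) (actY (α i) x y) g :=
    fun τ' => h1.sub_eq_sub h2 τ' τ
  have ht1 := FF_tendsto h w 0 x y g'
  have ht2 : Tendsto (fun τ => ∑ i, FF h w (α i • τ) (actX (α i) x y) (actY (α i) x y) g)
      (stripFilter 0) (𝓝 (∑ _i : ι, 0)) :=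
    tendsto_finsetSum _ fun i _ => (FF_tendsto h w _ _ _ g).comp
      (tendsto_smul_stripFilter (hα0 i) (hα i) 0)
  have ht := ht1.sub ht2
  simp only [hconst, Finset.sum_const_zero, sub_zero] at ht
  have := stripFilter_neBot (le_refl (0 : ℝ))
  exact sub_eq_zero.mp (tendsto_nhds_unique tendsto_const_nhds ht)

end Fermat.Agent.S22Lib
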