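import Fermat.Agent.S22.Cocycle

set_option autoImplicit false

namespace Fermat.Agent.S22Lib

open UpperHalfPlane hiding I
open Complex Filter Function Metric Set Asymptotics Matrix.SpecialLinearGroup
open scoped Manifold Topology Real ModularForm MatrixGroups Pointwise

theorem modularForm_eq_zero_of_nonpos {Γ : Subgroup (GL (Fin 2) ℝ)} [Γ.IsArithmetic] {k : ℤ}
    (hk : k ≤ 0) (F : ModularForm Γ k) (hz : IsZeroAtImInfty (F : ℍ → ℂ)) : F = 0 := by
  rcases hk.lt_or_eq with hk | rfl
  · exact ModularForm.isZero_of_neg_weight hk F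
  · obtain ⟨c, hc⟩ := ModularForm.eq_const_of_weight_zero F
    rw [hc] at hz
    have : c = 0 := tendsto_nhds_unique (tendsto_const_nhds (x := c) (f := atImInfty)) hz
    ext τ
    rw [hc, this]
    rfl

theorem slash_mapGL_apply (F : ℍ → ℂ) (k : ℤ) (g : SL(2, ℤ)) (τ : ℍ) :
    (F ∣[k] (mapGL ℝ g : GL (Fin 2) ℝ)) τ =
      F ((mapGL ℝ g : GL (Fin 2) ℝ) • τ) * denom (mapGL ℝ g : GL (Fin 2) ℝ) τ ^ (-k) := by
  rw [ModularForm.slash_apply]
  have hdet : (mapGL ℝ g : GL (Fin 2) ℝ).det.val = 1 := by simp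
  have hσ : σ (mapGL ℝ g : GL (Fin 2) ℝ) = .refl ℝ ℂ := by rw [σ, if_pos (by rw [hdet]; exact one_pos)]
  rw [hσ, hdet]
  simp

section

variable (h : ℝ) [hh : Fact (0 < h)]

theorem prim_injective : Function.Injective (prim h) := by
  rw [← LinearMap.ker_eq_bot, LinearMap.ker_eq_bot']
  intro g hg
  apply Subtype.ext
  funext τ
  have h1 := prim_isPrim h g τ
  rw [hg] at h1
  have h2 : HasDerivAt (((0 : decaySubmodule h) : ℍ → ℂ) ∘ ofComplex) 0 (τ : ℂ) :=
    hasDerivAt_const _ _
  exact h1.unique h2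

theorem prim_pow_injective (n : ℕ) : Function.Injective ((prim h) ^ n) := by
  induction n with
  | zero => exact fun _ _ h => h
  | succ n ih =>
    rw [pow_succ]
    exact ih.comp (prim_injective h)

theorem FF_smul_diag (w : ℕ) (A : GL (Fin 2) ℝ) (hA : 0 < A.val.det) (g : decaySubmodule h)
    (τ : ℍ) :
    FF h w (A • τ) (actX A τ 1) (actY A τ 1) g =
      denom A τ ^ w * ((w.factorial : ℂ) * (((prim h) ^ (w + 1)) g : ℍ → ℂ) (A • τ)) := by
  have hA' : 0 < A.det.val := by simpa [Matrix.GeneralLinearGroup.val_det_apply] using hA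
  have hd : denom A τ ≠ 0 := denom_ne_zero A τ
  have h1 : actX A τ 1 = denom A τ * ((A • τ : ℍ) : ℂ) := by
    rw [coe_smul_of_det_pos hA', mul_div_cancel₀ _ hd]
    simp [actX, num]
  have h2 : actY A τ 1 = denom A τ * 1 := by
    simp [actY, denom]
  rw [h1, h2, FF_homog, FF_diag]

end

theorem polynomial_eq_zero_of_int {p : Polynomial ℂ} (hp : ∀ m : ℤ, p.eval (m : ℂ) = 0) : p = 0 := by
  refine Polynomial.eq_zero_of_infinite_isRoot p ?_
  refine (Set.infinite_range_of_injective (Int.cast_injective (α := ℂ))).mono ?_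
  rintro _ ⟨m, rfl⟩
  exact hp m

theorem polynomial_const_of_periodic {p : Polynomial ℂ} {M : ℝ} (hM : 0 < M)
    (hp : ∀ τ : ℍ, p.eval ((τ : ℂ) + M) = p.eval (τ : ℂ)) (z : ℂ) :
    p.eval z = p.eval Complex.I := by
  have h1 : ∀ n : ℕ, p.eval (Complex.I + n * M) = p.eval Complex.I := by
    intro n
    induction n with
    | zero => simp
    | succ n ih =>
      have him : 0 < (Complex.I + n * M : ℂ).im := by
        have : ((n : ℂ) * (M : ℂ)).im = 0 := by
          rw [← ofReal_natCast, ← ofReal_mul, ofReal_im]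
        rw [add_im, this]; simp
      have := hp ⟨Complex.I + n * M, him⟩
      rw [← ih, ← this]
      congr 1
      push_cast
      show Complex.I + (n + 1) * M = Complex.I + n * M + M
      ring
  have h2 : p - Polynomial.C (p.eval Complex.I) = 0 := by
    refine Polynomial.eq_zero_of_infinite_isRoot _ ?_
    have hinj : Function.Injective (fun n : ℕ => (Complex.I + n * M : ℂ)) := by
      intro a b hab
      have hM' : (M : ℂ) ≠ 0 := by exact_mod_cast hM.ne'
      have := mul_right_cancel₀ hM' (add_left_cancel hab)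
      exact_mod_cast this
    refine (Set.infinite_range_of_injective hinj).mono ?_
    rintro _ ⟨n, rfl⟩
    simp [Polynomial.IsRoot, h1 n]
  have h3 := congrArg (Polynomial.eval z) h2
  simpa [sub_eq_zero] using h3

variable {N : ℕ} [NeZero N] (w : ℕ) {M : ℝ} [hMpos : Fact (0 < M)] (hM : IsCommonPeriod N M)

local notation "V" => CuspForm (CongruenceSubgroup.Gamma0 N) ((w : ℤ) + 2)

theorem coc_eq_zero_of_sep (f : V) (hf : ∀ l ∈ periodLattice w hM, l f = 0)
    {g : SL(2, ℤ)} (hg : g ∈ CongruenceSubgroup.Gamma0 N) (x : ℂ) : coc w hM g x 1 f = 0 := by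
  obtain ⟨p, hp⟩ := ((coc_isHomPoly w hM g).map (LinearMap.applyₗ f)).exists_polynomial
  have h0 : p = 0 := by
    refine polynomial_eq_zero_of_int fun m => ?_
    rw [← hp]
    have := hf _ (coc_mem_periodLattice w hM hg m 1)
    simpa using this
  have := hp x
  rw [h0] at this
  simpa using this

/-- The Eichler integral of `f`. -/
noncomputable def eichler (f : V) : ℍ → ℂ := (((prim M) ^ (w + 1)) (emb w hM f) : ℍ → ℂ)

theorem eichler_slash_eq (f : V) (hf : ∀ l ∈ periodLattice w hM, l f = 0)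
    {g : SL(2, ℤ)} (hg : g ∈ CongruenceSubgroup.Gamma0 N) :
    eichler w hM f ∣[-(w : ℤ)] (mapGL ℝ g : GL (Fin 2) ℝ) = eichler w hM f := by
  funext τ
  have h1 := coc_eq w hM hg τ 1 f τ
  rw [coc_eq_zero_of_sep w hM f hf hg, FF_smul_diag M w _ (det_mapGL_pos g), FF_diag,
    sub_eq_zero] at h1
  have hw : (w.factorial : ℂ) ≠ 0 := by exact_mod_cast w.factorial_ne_zero
  rw [slash_mapGL_apply, neg_neg, zpow_natCast]
  have h2 : (w.factorial : ℂ) * (denom (mapGL ℝ g : GL (Fin 2) ℝ) τ ^ w *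
      eichler w hM f ((mapGL ℝ g : GL (Fin 2) ℝ) • τ)) = (w.factorial : ℂ) * eichler w hM f τ := by
    simp only [eichler]; rw [← h1]; ring
  rw [mul_comm]
  exact mul_left_cancel₀ hw h2

theorem eichler_slash_bdd (f : V) (hf : ∀ l ∈ periodLattice w hM, l f = 0) (g : SL(2, ℤ)) :
    IsBoundedAtImInfty (eichler w hM f ∣[-(w : ℤ)] (mapGL ℝ g : GL (Fin 2) ℝ)) := by
  set A : GL (Fin 2) ℝ := mapGL ℝ g with hA
  let f' : decaySubmodule M := ⟨_, slash_mem_decay w hM f g⟩
  let F' : ℍ → ℂ := (((prim M) ^ (w + 1)) f' : ℍ → ℂ)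
  have hw : (w.factorial : ℂ) ≠ 0 := by exact_mod_cast w.factorial_ne_zero
  -- the constant of integration, a polynomial in `(x, y)`
  have hC : IsHomPoly w (fun x y => FF M w (A • UpperHalfPlane.I) (actX A x y) (actY A x y)
      (emb w hM f) - FF M w UpperHalfPlane.I x y f') := by
    have h1 := (FF_isHomPoly M w (A • UpperHalfPlane.I) (A 0 0 : ℂ) (A 0 1 : ℂ) (A 1 0 : ℂ)
      (A 1 1 : ℂ)).map (LinearMap.applyₗ (emb w hM f))
    have h2 := (FF_isHomPoly M w UpperHalfPlane.I 1 0 0 1).map (LinearMap.applyₗ f')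
    have h3 := h1.sub h2
    convert h3 using 3 with x y
    simp [actX, actY]
  obtain ⟨p, hp⟩ := hC.exists_polynomial
  have hconst : ∀ (x y : ℂ) (τ : ℍ), FF M w (A • τ) (actX A x y) (actY A x y) (emb w hM f) -
      FF M w τ x y f' = FF M w (A • UpperHalfPlane.I) (actX A x y) (actY A x y) (emb w hM f) -
      FF M w UpperHalfPlane.I x y f' := by
    intro x y τ
    have h1 := FF_smul_act_isPrim M w A (det_mapGL_pos g) x y (emb w hM f)
    have h2 := FF_isPrim M w x y f'
    exact h1.sub_eq_sub h2 τ UpperHalfPlane.I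
  have hrel : ∀ τ : ℍ, (w.factorial : ℂ) * (eichler w hM f ∣[-(w : ℤ)] A) τ =
      (w.factorial : ℂ) * F' τ + p.eval (τ : ℂ) := by
    intro τ
    have h1 := hconst τ 1 τ
    rw [hp, FF_smul_diag M w _ (det_mapGL_pos g), FF_diag] at h1
    rw [← h1, hA, slash_mapGL_apply, neg_neg, zpow_natCast]
    simp only [eichler, F']
    ring
  -- periodicity
  have hper1 : Periodic ((eichler w hM f ∣[-(w : ℤ)] A) ∘ ofComplex) M := by
    let SF : SlashInvariantForm (CongruenceSubgroup.Gamma0 N : Subgroup (GL (Fin 2) ℝ))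
        (-(w : ℤ)) :=
      { toFun := eichler w hM f
        slash_action_eq' := by
          rintro γ ⟨γ', hγ', rfl⟩
          exact eichler_slash_eq w hM f hf hγ' }
    have h1 := hM g⁻¹
    rw [map_inv] at h1
    exact SlashInvariantFormClass.periodic_comp_ofComplex (SlashInvariantForm.translate SF A) h1
  have hper2 : Periodic (F' ∘ ofComplex) M := (((prim M) ^ (w + 1)) f').2.2.1
  have hpper : ∀ τ : ℍ, p.eval ((τ : ℂ) + M) = p.eval (τ : ℂ) := by
    intro τ
    have him : 0 < ((τ : ℂ) + M).im := by simpa using τ.im_pos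
    have h1 := hrel ⟨(τ : ℂ) + M, him⟩
    have h2 := hrel τ
    have h3 := hper1 (τ : ℂ)
    have h4 := hper2 (τ : ℂ)
    simp only [comp_apply, ofComplex_apply, ofComplex_apply_of_im_pos him] at h3 h4
    rw [h3, h4] at h1
    have h5 : p.eval (((⟨(τ : ℂ) + M, him⟩ : ℍ) : ℂ)) = p.eval (τ : ℂ) := by
      have := h1.symm.trans h2
      exact add_left_cancel this
    exact h5
  have hpc := polynomial_const_of_periodic hMpos.out hpper
  have hfun : (eichler w hM f ∣[-(w : ℤ)] A) =
      F' + fun _ => (w.factorial : ℂ)⁻¹ * p.eval Complex.I := by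
    funext τ
    have h1 := hrel τ
    rw [hpc] at h1
    simp only [Pi.add_apply]
    field_simp
    rw [mul_comm, h1]
    ring
  rw [hfun]
  exact ((((prim M) ^ (w + 1)) f').2.2.2.isBoundedAtImInfty).add (const_boundedAtFilter _ _)

theorem periodLattice_sep (f : V) (hf : ∀ l ∈ periodLattice w hM, l f = 0) : f = 0 := by
  let MF : ModularForm (CongruenceSubgroup.Gamma0 N : Subgroup (GL (Fin 2) ℝ)) (-(w : ℤ)) :=
    { toFun := eichler w hM f
      slash_action_eq' := by
        rintro γ ⟨γ', hγ', rfl⟩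
        exact eichler_slash_eq w hM f hf hγ'
      holo' := (((prim M) ^ (w + 1)) (emb w hM f)).2.1
      bdd_at_cusps' := by
        intro c hc
        rw [Subgroup.IsArithmetic.isCusp_iff_isCusp_SL2Z] at hc
        rw [OnePoint.isBoundedAt_iff_forall_SL2Z hc]
        intro γ _
        exact eichler_slash_bdd w hM f hf γ }
  have h0 : MF = 0 := modularForm_eq_zero_of_nonpos (by simp) MF
    (((prim M) ^ (w + 1)) (emb w hM f)).2.2.2
  have h1 : ((prim M) ^ (w + 1)) (emb w hM f) = 0 := by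
    apply Subtype.ext
    funext τ
    exact congrArg (fun F : ModularForm _ _ => F τ) h0
  have h2 : emb w hM f = 0 := prim_pow_injective M (w + 1) (by rw [h1, map_zero])
  ext τ
  exact congrArg (fun F : decaySubmodule M => (F : ℍ → ℂ) τ) h2

end Fermat.Agent.S22Lib
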