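import Mathlib

set_option autoImplicit false

namespace Fermat.Agent.S22Lib

open scoped MatrixGroups

/-- Abstract finiteness criterion: a `ℤ`-algebra of operators on a complex vector space that
stabilises (by transposition) a finitely generated subgroup of the dual which separates points
is a finite `ℤ`-module. -/
theorem finite_adjoin_of_dual_lattice {V : Type*} [AddCommGroup V] [Module ℂ V]
    (G : Set (Module.End ℂ V)) (Λ : Submodule ℤ (Module.Dual ℂ V)) (hfg : Λ.FG)
    (hstab : ∀ T ∈ G, ∀ l ∈ Λ, l ∘ₗ T ∈ Λ)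
    (hsep : ∀ f : V, (∀ l ∈ Λ, l f = 0) → f = 0) :
    Module.Finite ℤ (Algebra.adjoin ℤ G) := by
  classical
  have hA : ∀ t ∈ Algebra.adjoin ℤ G, ∀ l ∈ Λ, l ∘ₗ t ∈ Λ := by
    intro t ht
    induction ht using Algebra.adjoin_induction with
    | mem x hx => exact hstab x hx
    | algebraMap r =>
      intro l hl
      have : l ∘ₗ (algebraMap ℤ (Module.End ℂ V) r) = r • l := by
        ext f
        simp
      rw [this]
      exact Λ.smul_mem r hl
    | add x y _ _ hx hy =>
      intro l hl
      rw [LinearMap.comp_add]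
      exact Λ.add_mem (hx l hl) (hy l hl)
    | mul x y _ _ hx hy =>
      intro l hl
      have : l ∘ₗ (x * y) = (l ∘ₗ x) ∘ₗ y := by
        ext f; simp
      rw [this]
      exact hy _ (hx l hl)
  have : IsNoetherian ℤ Λ := isNoetherian_of_fg_of_noetherian Λ hfg
  obtain ⟨s, hs⟩ := hfg
  let Φ : (Algebra.adjoin ℤ G) →ₗ[ℤ] (s → Λ) :=
    { toFun := fun t l => ⟨(l : Module.Dual ℂ V) ∘ₗ (t : Module.End ℂ V),
        hA t t.2 l (hs ▸ Submodule.subset_span l.2)⟩
      map_add' := by
        intro a b
        funext l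
        apply Subtype.ext
        simp [LinearMap.comp_add]
      map_smul' := by
        intro r a
        funext l
        apply Subtype.ext
        ext f
        simp }
  refine Module.Finite.of_injective Φ ?_
  rw [← LinearMap.ker_eq_bot, LinearMap.ker_eq_bot']
  intro t ht
  apply Subtype.ext
  ext f
  simp only [ZeroMemClass.coe_zero, LinearMap.zero_apply]
  apply hsep
  intro l hl
  rw [← hs] at hl
  induction hl using Submodule.span_induction with
  | mem x hx =>
    have := congrArg (fun F => ((F ⟨x, hx⟩ : Λ) : Module.Dual ℂ V) f) ht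
    simpa [Φ] using this
  | zero => simp
  | add x y _ _ hx hy => simp [hx, hy]
  | smul a x _ hx => simp [hx]

/-- `SL(2, ℤ)` is finitely generated. -/
instance groupFG_SL2Z : Group.FG SL(2, ℤ) := by
  rw [Group.fg_iff]
  exact ⟨{ModularGroup.S, ModularGroup.T}, SpecialLinearGroup.SL2Z_generators, by simp⟩

/-- `Γ₀(N)` is finitely generated. -/
theorem groupFG_Gamma0 (N : ℕ) [NeZero N] : Group.FG (CongruenceSubgroup.Gamma0 N) :=
  Subgroup.fg_of_index_ne_zero _

end Fermat.Agent.S22Lib
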