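import Fermat.Agent.S22.FF

set_option autoImplicit false

namespace Fermat.Agent.S22Lib

open UpperHalfPlane hiding I
open Complex Filter Function Metric Set
open scoped Manifold Topology Real ModularForm MatrixGroups

section HomPoly

variable {M M' : Type*} [AddCommGroup M] [Module ℂ M] [AddCommGroup M'] [Module ℂ M']

/-- `φ` is a homogeneous polynomial of degree `w` in two variables with coefficients in `M`. -/
def IsHomPoly (w : ℕ) (φ : ℂ → ℂ → M) : Prop :=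
  ∃ κ : ℕ → M, ∀ x y, φ x y = ∑ m ∈ Finset.range (w + 1), (x ^ m * y ^ (w - m)) • κ m

theorem IsHomPoly.const (μ : M) : IsHomPoly 0 (fun _ _ => μ) :=
  ⟨fun _ => μ, fun x y => by simp⟩

theorem IsHomPoly.add {w : ℕ} {φ ψ : ℂ → ℂ → M} (hφ : IsHomPoly w φ) (hψ : IsHomPoly w ψ) :
    IsHomPoly w (fun x y => φ x y + ψ x y) := by
  obtain ⟨κ, hκ⟩ := hφ
  obtain ⟨κ', hκ'⟩ := hψ
  exact ⟨fun m => κ m + κ' m, fun x y => by
    simp only [hκ, hκ', ← Finset.sum_add_distrib, smul_add]⟩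

theorem IsHomPoly.smul {w : ℕ} {φ : ℂ → ℂ → M} (c : ℂ) (hφ : IsHomPoly w φ) :
    IsHomPoly w (fun x y => c • φ x y) := by
  obtain ⟨κ, hκ⟩ := hφ
  exact ⟨fun m => c • κ m, fun x y => by
    simp only [hκ, Finset.smul_sum]
    exact Finset.sum_congr rfl fun m _ => smul_comm _ _ _⟩

theorem IsHomPoly.sub {w : ℕ} {φ ψ : ℂ → ℂ → M} (hφ : IsHomPoly w φ) (hψ : IsHomPoly w ψ) :
    IsHomPoly w (fun x y => φ x y - ψ x y) := by
  have := hφ.add (hψ.smul (-1))
  simpa [sub_eq_add_neg] using this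

theorem IsHomPoly.map {w : ℕ} {φ : ℂ → ℂ → M} (L : M →ₗ[ℂ] M') (hφ : IsHomPoly w φ) :
    IsHomPoly w (fun x y => L (φ x y)) := by
  obtain ⟨κ, hκ⟩ := hφ
  exact ⟨fun m => L (κ m), fun x y => by simp only [hκ, map_sum, map_smul]⟩

theorem IsHomPoly.mul_x {w : ℕ} {φ : ℂ → ℂ → M} (hφ : IsHomPoly w φ) :
    IsHomPoly (w + 1) (fun x y => x • φ x y) := by
  obtain ⟨κ, hκ⟩ := hφ
  refine ⟨fun m => Nat.casesOn m 0 κ, fun x y => ?_⟩
  simp only [hκ]
  rw [Finset.sum_range_succ' _ (w + 1), Finset.smul_sum]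
  have h0 : (x ^ 0 * y ^ (w + 1 - 0)) • (Nat.casesOn (motive := fun _ => M) 0 0 κ : M) = 0 :=
    smul_zero _
  rw [h0, add_zero]
  refine Finset.sum_congr rfl fun m _ => ?_
  show x • (x ^ m * y ^ (w - m)) • κ m = (x ^ (m + 1) * y ^ (w + 1 - (m + 1))) • κ m
  rw [smul_smul, Nat.add_sub_add_right]
  congr 1
  ring

theorem IsHomPoly.mul_y {w : ℕ} {φ : ℂ → ℂ → M} (hφ : IsHomPoly w φ) :
    IsHomPoly (w + 1) (fun x y => y • φ x y) := by
  obtain ⟨κ, hκ⟩ := hφ
  refine ⟨fun m => if m ≤ w then κ m else 0, fun x y => ?_⟩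
  simp only [hκ]
  rw [Finset.sum_range_succ _ (w + 1), Finset.smul_sum]
  simp only [add_le_iff_nonpos_right, nonpos_iff_eq_zero, one_ne_zero, ↓reduceIte, smul_zero,
    add_zero]
  refine Finset.sum_congr rfl fun m hm => ?_
  have hm' : m ≤ w := Nat.lt_succ_iff.mp (Finset.mem_range.mp hm)
  rw [if_pos hm', smul_smul, Nat.succ_sub hm', pow_succ]
  congr 1
  ring

theorem IsHomPoly.linear_mul {w : ℕ} {φ : ℂ → ℂ → M} (a b : ℂ) (hφ : IsHomPoly w φ) :
    IsHomPoly (w + 1) (fun x y => (a * x + b * y) • φ x y) := by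
  have := (hφ.mul_x.smul a).add (hφ.mul_y.smul b)
  simpa [add_smul, mul_smul] using this

theorem IsHomPoly.pow_linear (a b : ℂ) (r : ℕ) (μ : M) :
    IsHomPoly r (fun x y => (a * x + b * y) ^ r • μ) := by
  induction r with
  | zero => simpa using IsHomPoly.const μ
  | succ r ih =>
    have := ih.linear_mul a b
    simpa [pow_succ', mul_smul] using this

/-- Values at integer points lie in a finitely generated subgroup. -/
theorem IsHomPoly.exists_finset {w : ℕ} {φ : ℂ → ℂ → M} (hφ : IsHomPoly w φ) :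
    ∃ K : Finset M, ∀ m n : ℤ, φ m n ∈ Submodule.span ℤ (K : Set M) := by
  classical
  obtain ⟨κ, hκ⟩ := hφ
  refine ⟨(Finset.range (w + 1)).image κ, fun m n => ?_⟩
  rw [hκ]
  refine Submodule.sum_mem _ fun j hj => ?_
  have : ((m : ℂ) ^ j * (n : ℂ) ^ (w - j)) • κ j = (m ^ j * n ^ (w - j) : ℤ) • κ j := by
    rw [← Int.cast_smul_eq_zsmul ℂ]
    push_cast
    rfl
  rw [this]
  exact Submodule.smul_mem _ _ (Submodule.subset_span (by simpa using ⟨j, by simpa using hj, rfl⟩))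

theorem IsHomPoly.exists_polynomial {w : ℕ} {φ : ℂ → ℂ → ℂ} (hφ : IsHomPoly w φ) :
    ∃ p : Polynomial ℂ, ∀ x, φ x 1 = p.eval x := by
  obtain ⟨κ, hκ⟩ := hφ
  refine ⟨∑ m ∈ Finset.range (w + 1), Polynomial.C (κ m) * Polynomial.X ^ m, fun x => ?_⟩
  rw [hκ, Polynomial.eval_finsetSum]
  refine Finset.sum_congr rfl fun m _ => ?_
  simp only [one_pow, mul_one, smul_eq_mul, Polynomial.eval_mul, Polynomial.eval_C,
    Polynomial.eval_pow, Polynomial.eval_X]
  ring

end HomPoly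

variable (h : ℝ) [hh : Fact (0 < h)]

theorem FF_isHomPoly (w : ℕ) (τ : ℍ) (a b c d : ℂ) :
    IsHomPoly w (fun x y => FF h w τ (a * x + b * y) (c * x + d * y)) := by
  induction w with
  | zero => exact IsHomPoly.const _
  | succ w ih =>
    have h1 : IsHomPoly (w + 1) (fun x y => ((a - τ * c) * x + (b - τ * d) * y) ^ (w + 1) •
        (evalAt h τ ∘ₗ prim h)) := IsHomPoly.pow_linear _ _ _ _
    have h2 := (ih.map (LinearMap.lcomp ℂ ℂ (prim h))).linear_mul (((w : ℂ) + 1) * c)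
      (((w : ℂ) + 1) * d)
    have h3 := h1.add h2
    convert h3 using 3 with x y
    simp only [FF, LinearMap.lcomp_apply']
    congr 2 <;> ring

end Fermat.Agent.S22Lib
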