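import Fermat.Agent.S22.Decay
import Fermat.Agent.S22.HomPoly
import Fermat.Agent.S22.Abstract

set_option autoImplicit false

namespace Fermat.Agent.S22Lib

open UpperHalfPlane hiding I
open Complex Filter Function Metric Set Asymptotics Matrix.SpecialLinearGroup
open scoped Manifold Topology Real ModularForm MatrixGroups Pointwise

/-- The hypothesis that `M` is a common period at all cusps. -/
def IsCommonPeriod (N : ℕ) (M : ℝ) : Prop :=
  ∀ γ : SL(2, ℤ), M ∈ (ConjAct.toConjAct (mapGL ℝ γ) •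
    (CongruenceSubgroup.Gamma0 N : Subgroup (GL (Fin 2) ℝ))).strictPeriods

variable {N : ℕ} [NeZero N] (w : ℕ) {M : ℝ} [hMpos : Fact (0 < M)] (hM : IsCommonPeriod N M)

local notation "V" => CuspForm (CongruenceSubgroup.Gamma0 N) ((w : ℤ) + 2)

theorem det_mapGL_pos (g : SL(2, ℤ)) : 0 < (mapGL ℝ g : GL (Fin 2) ℝ).val.det := by
  rw [← Matrix.GeneralLinearGroup.val_det_apply]
  simp

include hM in
omit hMpos in
theorem slash_mem_decay (f : V) (g : SL(2, ℤ)) :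
    (⇑f ∣[(w : ℤ) + 2] (mapGL ℝ g : GL (Fin 2) ℝ)) ∈ decaySubmodule M := by
  refine ⟨(CuspFormClass.holo f).slash _ _, ?_, CuspFormClass.zero_at_infty_slash f g⟩
  have h1 := hM g⁻¹
  rw [map_inv] at h1
  exact SlashInvariantFormClass.periodic_comp_ofComplex (CuspForm.translate f (mapGL ℝ g)) h1

include hM in
omit hMpos in
theorem coe_mem_decay (f : V) : (⇑f : ℍ → ℂ) ∈ decaySubmodule M := by
  simpa using slash_mem_decay w hM f 1

/-- The embedding of cusp forms in the space of decaying periodic functions. -/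
def emb : V →ₗ[ℂ] decaySubmodule M where
  toFun f := ⟨⇑f, coe_mem_decay w hM f⟩
  map_add' _ _ := rfl
  map_smul' _ _ := rfl

omit hMpos in
@[simp] theorem coe_emb (f : V) : (emb w hM f : ℍ → ℂ) = ⇑f := rfl

/-- The period cocycle, evaluated at the vector `(x, y)`. -/
noncomputable def coc (g : SL(2, ℤ)) (x y : ℂ) : V →ₗ[ℂ] ℂ :=
  (FF M w ((mapGL ℝ g : GL (Fin 2) ℝ) • UpperHalfPlane.I) (actX (mapGL ℝ g) x y)
    (actY (mapGL ℝ g) x y) - FF M w UpperHalfPlane.I x y) ∘ₗ emb w hM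

theorem coc_apply (g : SL(2, ℤ)) (x y : ℂ) (f : V) :
    coc w hM g x y f = FF M w ((mapGL ℝ g : GL (Fin 2) ℝ) • UpperHalfPlane.I)
      (actX (mapGL ℝ g) x y) (actY (mapGL ℝ g) x y) (emb w hM f) -
      FF M w UpperHalfPlane.I x y (emb w hM f) := rfl

theorem coc_eq {g : SL(2, ℤ)} (hg : g ∈ CongruenceSubgroup.Gamma0 N) (x y : ℂ) (f : V) (τ : ℍ) :
    FF M w ((mapGL ℝ g : GL (Fin 2) ℝ) • τ) (actX (mapGL ℝ g) x y) (actY (mapGL ℝ g) x y)
      (emb w hM f) - FF M w τ x y (emb w hM f) = coc w hM g x y f := by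
  have h1 := FF_smul_act_isPrim M w (mapGL ℝ g) (det_mapGL_pos g) x y (emb w hM f)
  have h2 := FF_isPrim M w x y (emb w hM f)
  have h3 : (⇑f : ℍ → ℂ) ∣[(w : ℤ) + 2] (mapGL ℝ g : GL (Fin 2) ℝ) = ⇑f :=
    SlashInvariantFormClass.slash_action_eq f _ (Subgroup.mem_map_of_mem (mapGL ℝ) hg)
  rw [coe_emb, h3] at h1
  exact h1.sub_eq_sub h2 τ UpperHalfPlane.I

theorem coc_one (x y : ℂ) : coc w hM 1 x y = 0 := by
  ext f
  simp [coc_apply]

theorem coc_mul {g₁ : SL(2, ℤ)} (hg₁ : g₁ ∈ CongruenceSubgroup.Gamma0 N) (g₂ : SL(2, ℤ))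
    (x y : ℂ) :
    coc w hM (g₁ * g₂) x y = coc w hM g₁ (actX (mapGL ℝ g₂) x y) (actY (mapGL ℝ g₂) x y) +
      coc w hM g₂ x y := by
  ext f
  rw [LinearMap.add_apply, ← coc_eq w hM hg₁ _ _ f ((mapGL ℝ g₂ : GL (Fin 2) ℝ) • UpperHalfPlane.I),
    coc_apply, coc_apply, map_mul, mul_smul, actX_mul, actY_mul]
  ring

theorem coc_isHomPoly (g : SL(2, ℤ)) : IsHomPoly w (fun x y => coc w hM g x y) := by
  have h1 := FF_isHomPoly M w ((mapGL ℝ g : GL (Fin 2) ℝ) • UpperHalfPlane.I)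
    ((mapGL ℝ g : GL (Fin 2) ℝ) 0 0 : ℂ) ((mapGL ℝ g : GL (Fin 2) ℝ) 0 1 : ℂ)
    ((mapGL ℝ g : GL (Fin 2) ℝ) 1 0 : ℂ) ((mapGL ℝ g : GL (Fin 2) ℝ) 1 1 : ℂ)
  have h2 := FF_isHomPoly M w UpperHalfPlane.I 1 0 0 1
  have h3 := (h1.sub h2).map (LinearMap.lcomp ℂ ℂ (emb w hM))
  convert h3 using 3 with x y
  simp only [coc, actX, actY, one_mul, zero_mul, add_zero, zero_add]
  rfl

theorem actX_mapGL_int (g : SL(2, ℤ)) (m n : ℤ) :
    actX (mapGL ℝ g) m n = ((g 0 0 * m + g 0 1 * n : ℤ) : ℂ) := by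
  simp [actX]

theorem actY_mapGL_int (g : SL(2, ℤ)) (m n : ℤ) :
    actY (mapGL ℝ g) m n = ((g 1 0 * m + g 1 1 * n : ℤ) : ℂ) := by
  simp [actY]

/-- The period lattice. -/
def periodLattice : Submodule ℤ (Module.Dual ℂ V) :=
  Submodule.span ℤ {l | ∃ g ∈ CongruenceSubgroup.Gamma0 N, ∃ m n : ℤ, l = coc w hM g m n}

theorem coc_mem_periodLattice {g : SL(2, ℤ)} (hg : g ∈ CongruenceSubgroup.Gamma0 N) (m n : ℤ) :
    coc w hM g m n ∈ periodLattice w hM :=
  Submodule.subset_span ⟨g, hg, m, n, rfl⟩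

theorem periodLattice_fg : (periodLattice w hM).FG := by
  classical
  obtain ⟨S, hS, hSfin⟩ := Group.fg_iff.mp (groupFG_Gamma0 N)
  choose K hK using fun g : SL(2, ℤ) => (coc_isHomPoly w hM g).exists_finset
  let Λ₀ : Submodule ℤ (Module.Dual ℂ V) :=
    Submodule.span ℤ (⋃ s ∈ S, (K (s : SL(2, ℤ)) : Set (Module.Dual ℂ V)))
  have hΛ₀ : Λ₀.FG := by
    refine Submodule.fg_span ?_
    exact hSfin.biUnion fun s _ => Finset.finite_toSet _
  refine Submodule.FG.of_le hΛ₀ ?_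
  have key : ∀ γ : CongruenceSubgroup.Gamma0 N, ∀ m n : ℤ,
      coc w hM (γ : SL(2, ℤ)) m n ∈ Λ₀ := by
    intro γ
    have hγ : γ ∈ Subgroup.closure S := hS ▸ Subgroup.mem_top γ
    induction hγ using Subgroup.closure_induction with
    | mem s hs =>
      intro m n
      refine Submodule.span_mono ?_ (hK (s : SL(2, ℤ)) m n)
      exact Set.subset_biUnion_of_mem (u := fun s : CongruenceSubgroup.Gamma0 N =>
        (K (s : SL(2, ℤ)) : Set (Module.Dual ℂ V))) hs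
    | one =>
      intro m n
      simp [coc_one]
    | mul a b _ _ ha hb =>
      intro m n
      rw [Subgroup.coe_mul, coc_mul w hM a.2, actX_mapGL_int, actY_mapGL_int]
      exact Λ₀.add_mem (ha _ _) (hb _ _)
    | inv a _ ha =>
      intro m n
      have h1 := coc_mul w hM a.2 ((a : SL(2, ℤ))⁻¹) m n
      rw [mul_inv_cancel, coc_one, actX_mapGL_int, actY_mapGL_int] at h1
      have h2 : coc w hM ((a⁻¹ : CongruenceSubgroup.Gamma0 N) : SL(2, ℤ)) m n =
          - coc w hM (a : SL(2, ℤ)) (((a : SL(2, ℤ))⁻¹ 0 0 * m + (a : SL(2, ℤ))⁻¹ 0 1 * n : ℤ) : ℂ)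
            (((a : SL(2, ℤ))⁻¹ 1 0 * m + (a : SL(2, ℤ))⁻¹ 1 1 * n : ℤ) : ℂ) := by
        rw [Subgroup.coe_inv]
        exact eq_neg_of_add_eq_zero_right h1.symm
      rw [h2]
      exact Λ₀.neg_mem (ha _ _)
  rw [periodLattice, Submodule.span_le]
  rintro l ⟨g, hg, m, n, rfl⟩
  exact key ⟨g, hg⟩ m n

/-- Stability of the period lattice under a Hecke operator given by integral upper triangular
coset representatives. -/
theorem periodLattice_comp_mem {ι' : Type*} [Fintype ι'] (α : ι' → GL (Fin 2) ℝ)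
    (hα0 : ∀ i, α i 1 0 = 0) (hα : ∀ i, 0 < (α i).val.det)
    (hαZ : ∀ i, ∀ m n : ℤ, ∃ m' n' : ℤ, actX (α i) m n = m' ∧ actY (α i) m n = n')
    (T : Module.End ℂ V) (hT : ∀ f : V, (⇑(T f) : ℍ → ℂ) = ∑ i, ⇑f ∣[(w : ℤ) + 2] α i)
    (hperm : ∀ g ∈ CongruenceSubgroup.Gamma0 N, ∃ σ : Equiv.Perm ι', ∀ i,
      ∃ g' ∈ CongruenceSubgroup.Gamma0 N, α i * mapGL ℝ g = mapGL ℝ g' * α (σ i))
    (l : Module.Dual ℂ V) (hl : l ∈ periodLattice w hM) : l ∘ₗ T ∈ periodLattice w hM := by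
  induction hl using Submodule.span_induction with
  | zero => simp
  | add a b _ _ ha hb =>
    rw [LinearMap.add_comp]
    exact Submodule.add_mem _ ha hb
  | smul r a _ ha =>
    rw [LinearMap.smul_comp]
    exact Submodule.smul_mem _ r ha
  | mem l hl =>
    obtain ⟨g, hg, m, n, rfl⟩ := hl
    obtain ⟨σ, hσ⟩ := hperm g hg
    choose g' hg' hmul using hσ
    have hsum : coc w hM g m n ∘ₗ T =
        ∑ i, coc w hM (g' i) (actX (α (σ i)) m n) (actY (α (σ i)) m n) := by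
      ext f
      rw [LinearMap.comp_apply, LinearMap.sum_apply, coc_apply]
      have hTf : ((emb w hM (T f) : decaySubmodule M) : ℍ → ℂ) =
          ∑ i, ((emb w hM f : decaySubmodule M) : ℍ → ℂ) ∣[(w : ℤ) + 2] α i := hT f
      rw [FF_hecke M w α hα0 hα (emb w hM f) (emb w hM (T f)) hTf,
        FF_hecke M w α hα0 hα (emb w hM f) (emb w hM (T f)) hTf,
        ← Equiv.sum_comp σ (fun i => FF M w (α i • UpperHalfPlane.I) (actX (α i) m n)
          (actY (α i) m n) (emb w hM f)), ← Finset.sum_sub_distrib]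
      refine Finset.sum_congr rfl fun i _ => ?_
      rw [← coc_eq w hM (hg' i) _ _ f (α (σ i) • UpperHalfPlane.I), ← mul_smul, ← mul_smul,
        ← actX_mul, ← actY_mul, ← actX_mul, ← actY_mul, hmul i]
    rw [hsum]
    refine Submodule.sum_mem _ fun i _ => ?_
    obtain ⟨m', n', h1, h2⟩ := hαZ (σ i) m n
    rw [h1, h2]
    exact coc_mem_periodLattice w hM (hg' i) m' n'

end Fermat.Agent.S22Lib
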