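import Fermat.Agent.S22.Prim

set_option autoImplicit false

namespace Fermat.Agent.S22Lib

open UpperHalfPlane hiding I
open Complex Filter Function Metric Set
open scoped Manifold Topology Real ModularForm MatrixGroups

variable (h : ℝ) [hh : Fact (0 < h)]

/-- Evaluation at a point, as a linear functional. -/
def evalAt (τ : ℍ) : decaySubmodule h →ₗ[ℂ] ℂ where
  toFun g := (g : ℍ → ℂ) τ
  map_add' _ _ := rfl
  map_smul' _ _ := rfl

omit hh in
@[simp] theorem evalAt_apply (τ : ℍ) (g : decaySubmodule h) : evalAt h τ g = (g : ℍ → ℂ) τ := rfl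

/-- `FF w τ x y g = ∫_{i∞}^τ g(z) (x - z y)^w dz`, defined by repeated integration by parts. -/
noncomputable def FF : ℕ → ℍ → ℂ → ℂ → (decaySubmodule h →ₗ[ℂ] ℂ)
  | 0, τ, _, _ => evalAt h τ ∘ₗ prim h
  | (w + 1), τ, x, y => (x - τ * y) ^ (w + 1) • (evalAt h τ ∘ₗ prim h) +
      (((w : ℂ) + 1) * y) • (FF w τ x y ∘ₗ prim h)

theorem FF_zero_apply (τ : ℍ) (x y : ℂ) (g : decaySubmodule h) :
    FF h 0 τ x y g = (prim h g : ℍ → ℂ) τ := rfl

theorem FF_succ_apply (w : ℕ) (τ : ℍ) (x y : ℂ) (g : decaySubmodule h) :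
    FF h (w + 1) τ x y g = (x - τ * y) ^ (w + 1) * (prim h g : ℍ → ℂ) τ +
      (((w : ℂ) + 1) * y) * FF h w τ x y (prim h g) := rfl

theorem FF_isPrim (w : ℕ) (x y : ℂ) (g : decaySubmodule h) :
    IsPrim (fun τ => FF h w τ x y g) (fun τ => (g : ℍ → ℂ) τ * (x - τ * y) ^ w) := by
  induction w generalizing g with
  | zero =>
    intro τ
    simpa [FF_zero_apply] using prim_isPrim h g τ
  | succ w ih =>
    intro τ
    have h1 := prim_isPrim h g τ
    have h2 := ih (prim h g) τ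
    have h3 : HasDerivAt (fun z : ℂ => (x - ((ofComplex z : ℍ) : ℂ) * y) ^ (w + 1))
        (((w + 1 : ℕ) : ℂ) * (x - τ * y) ^ w * (0 - 1 * y)) (τ : ℂ) := by
      have := (((hasDerivAt_coe_ofComplex τ).mul_const y).const_sub x).fun_pow (w + 1)
      simpa using this
    have h4 := (h3.mul h1).add (h2.const_mul (((w : ℂ) + 1) * y))
    have h5 : ((fun τ => FF h (w + 1) τ x y g) ∘ ofComplex) =
        (fun z : ℂ => (x - ((ofComplex z : ℍ) : ℂ) * y) ^ (w + 1) *
          ((prim h g : ℍ → ℂ) ∘ ofComplex) z +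
          (((w : ℂ) + 1) * y) * ((fun τ => FF h w τ x y (prim h g)) ∘ ofComplex) z) := by
      funext z
      simp [FF_succ_apply]
    rw [h5]
    refine HasDerivAt.congr_deriv h4 ?_
    simp only [ofComplex_apply, comp_apply]
    push_cast
    ring

/-- The action of a real matrix on `ℂ²`, first coordinate. -/
def actX (A : GL (Fin 2) ℝ) (x y : ℂ) : ℂ := (A 0 0 : ℂ) * x + (A 0 1 : ℂ) * y
/-- The action of a real matrix on `ℂ²`, second coordinate. -/
def actY (A : GL (Fin 2) ℝ) (x y : ℂ) : ℂ := (A 1 0 : ℂ) * x + (A 1 1 : ℂ) * y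

theorem actX_mul (A B : GL (Fin 2) ℝ) (x y : ℂ) :
    actX (A * B) x y = actX A (actX B x y) (actY B x y) := by
  simp only [actX, actY, Matrix.GeneralLinearGroup.coe_mul, Matrix.mul_apply, Fin.sum_univ_two]
  push_cast
  ring

theorem actY_mul (A B : GL (Fin 2) ℝ) (x y : ℂ) :
    actY (A * B) x y = actY A (actX B x y) (actY B x y) := by
  simp only [actX, actY, Matrix.GeneralLinearGroup.coe_mul, Matrix.mul_apply, Fin.sum_univ_two]
  push_cast
  ring

@[simp] theorem actX_one (x y : ℂ) : actX 1 x y = x := by simp [actX]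
@[simp] theorem actY_one (x y : ℂ) : actY 1 x y = y := by simp [actY]

theorem FF_smul_hasDerivAt (w : ℕ) (A : GL (Fin 2) ℝ) (hA : 0 < A.val.det) (x y : ℂ)
    (g : decaySubmodule h) (τ : ℍ) :
    HasDerivAt (fun z : ℂ => FF h w (A • ofComplex z) x y g)
      ((g : ℍ → ℂ) (A • τ) * (x - ((A • τ : ℍ) : ℂ) * y) ^ w *
        ((A.val.det : ℂ) / denom A τ ^ 2)) (τ : ℂ) := by
  have h1 := FF_isPrim h w x y g (A • τ)
  have h2 := (hasStrictDerivAt_smul hA τ).hasDerivAt
  have h1' : HasDerivAt ((fun τ => FF h w τ x y g) ∘ ofComplex)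
      ((g : ℍ → ℂ) (A • τ) * (x - ((A • τ : ℍ) : ℂ) * y) ^ w)
      ((fun z : ℂ => ((A • ofComplex z : ℍ) : ℂ)) (τ : ℂ)) := by
    simpa using h1
  have h3 := h1'.comp (τ : ℂ) h2
  refine h3.congr_of_eventuallyEq (Eventually.of_forall fun z => ?_)
  simp

theorem act_sub_eq (A : GL (Fin 2) ℝ) (hA : 0 < A.val.det) (x y : ℂ) (τ : ℍ) :
    actX A x y - ((A • τ : ℍ) : ℂ) * actY A x y = (A.val.det : ℂ) * (x - τ * y) / denom A τ := by
  have hd : denom A τ ≠ 0 := denom_ne_zero A τ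
  have hA' : 0 < A.det.val := by simpa [Matrix.GeneralLinearGroup.val_det_apply] using hA
  rw [coe_smul_of_det_pos hA', eq_div_iff hd, sub_mul, mul_assoc, mul_comm (actY A x y),
    ← mul_assoc, div_mul_cancel₀ _ hd]
  simp only [actX, actY, num, denom, Matrix.det_fin_two]
  push_cast
  ring

/-- The key equivariance: the derivative of `τ ↦ FF w (A τ) (A v)` is `(g ∣[w+2] A)(τ) (x - τ y)^w`. -/
theorem FF_smul_act_isPrim (w : ℕ) (A : GL (Fin 2) ℝ) (hA : 0 < A.val.det) (x y : ℂ)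
    (g : decaySubmodule h) :
    IsPrim (fun τ => FF h w (A • τ) (actX A x y) (actY A x y) g)
      (fun τ => ((g : ℍ → ℂ) ∣[(w : ℤ) + 2] A) τ * (x - τ * y) ^ w) := by
  intro τ
  have h1 := FF_smul_hasDerivAt h w A hA (actX A x y) (actY A x y) g τ
  have hd : denom A τ ≠ 0 := denom_ne_zero A τ
  have hA' : 0 < A.det.val := by simpa [Matrix.GeneralLinearGroup.val_det_apply] using hA
  have hdet : (A.val.det : ℂ) ≠ 0 := by exact_mod_cast hA.ne'
  refine HasDerivAt.congr_deriv h1 ?_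
  show _ = ((g : ℍ → ℂ) ∣[(w : ℤ) + 2] A) τ * (x - τ * y) ^ w
  rw [act_sub_eq A hA, ModularForm.slash_apply]
  have hσ : σ A = .refl ℝ ℂ := by rw [σ, if_pos hA']
  rw [hσ]
  simp only [ContinuousAlgEquiv.refl_apply, Matrix.GeneralLinearGroup.val_det_apply,
    abs_of_pos hA]
  rw [show (w : ℤ) + 2 - 1 = ((w + 1 : ℕ) : ℤ) by push_cast; ring, zpow_natCast,
    show -((w : ℤ) + 2) = -((w + 2 : ℕ) : ℤ) by push_cast; ring, zpow_neg, zpow_natCast,
    div_pow, mul_pow, pow_succ (A.val.det : ℂ) w, pow_add (denom A τ) w 2]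
  field_simp

theorem FF_homog (w : ℕ) (τ : ℍ) (c x y : ℂ) (g : decaySubmodule h) :
    FF h w τ (c * x) (c * y) g = c ^ w * FF h w τ x y g := by
  induction w generalizing g with
  | zero => simp [FF_zero_apply]
  | succ w ih =>
    rw [FF_succ_apply, FF_succ_apply, ih, show c * x - τ * (c * y) = c * (x - τ * y) by ring,
      mul_pow]
    ring

/-- iterated primitive -/
theorem FF_diag (w : ℕ) (τ : ℍ) (g : decaySubmodule h) :
    FF h w τ τ 1 g = (w.factorial : ℂ) * (((prim h) ^ (w + 1)) g : ℍ → ℂ) τ := by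
  induction w generalizing g with
  | zero => simp [FF_zero_apply]
  | succ w ih =>
    rw [FF_succ_apply, ih]
    simp only [mul_one, sub_self, ne_eq, Nat.add_eq_zero_iff, one_ne_zero, and_false,
      not_false_eq_true, zero_pow, zero_mul, zero_add, Nat.factorial_succ]
    rw [pow_succ (prim h) (w + 1)]
    push_cast
    simp only [Module.End.mul_apply]
    ring

end Fermat.Agent.S22Lib
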